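/-
S36, instance of the model, node N3 CUSP-INST (helper38).
The valuation-theoretic fields of `BAD.Model.CuspData` for `s = 1/j(z)`, `s' = 1/j(qz)`,
`s'' = 1/j(q²z)` on the three vertical components `V20`, `V11`, `V02`: units and the six Frobenius
congruences, from the table of residues of helper156 (`S36/Mod/Table/*`).
-/
import Mathlib
import Fermat.Agent.S36.Mod.Table.Gen
import Fermat.Agent.S36.Mod.Table.Res
import Fermat.Agent.S36.Mod.HalfInst.Insep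
import Fermat.Agent.S36.Inst.Defs

set_option autoImplicit false
set_option linter.unusedSectionVars false

noncomputable section

namespace Fermat.Agent.S36.Mod.Setup

open ModularCurve Fermat.Agent.S24 Fermat.Agent.S18 Fermat.Agent.S18.Vert
  Fermat.Agent.S18.Descent Fermat.Agent.S36.Inst

section General

variable {F L : Type*} [Field F] [CommRing L] [IsDomain L]

theorem cuspAux_val_eq_one {V : ValuationSubring F} (r : V →+* L)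
    (hr : ∀ f : V, r f = 0 ↔ (f : F) ∈ V.nonunits) {b : F} (hb : b ∈ V) (hb0 : r ⟨b, hb⟩ ≠ 0) :
    V.valuation b = 1 := by
  have h1 : V.valuation b ≤ 1 := (V.valuation_le_one_iff b).2 hb
  refine le_antisymm h1 (not_lt.1 fun h2 => hb0 ((hr ⟨b, hb⟩).2 ?_))
  exact V.mem_nonunits_iff.2 h2

/-- `a ≡ b ^ n`, `b` a unit: then `(1/b) ^ n / (1/a) ≡ 1`. -/
theorem cuspAux_cong {V : ValuationSubring F} (r : V →+* L)
    (hr : ∀ f : V, r f = 0 ↔ (f : F) ∈ V.nonunits) {a b : F} (ha : a ∈ V) (hb : b ∈ V) (n : ℕ)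
    (hb0 : r ⟨b, hb⟩ ≠ 0) (h : r ⟨a, ha⟩ = r ⟨b, hb⟩ ^ n) :
    V.valuation (b⁻¹ ^ n / a⁻¹ - 1) < 1 := by
  have hvb : V.valuation b = 1 := cuspAux_val_eq_one r hr hb hb0
  have hb1 : b ≠ 0 := by
    rintro rfl
    rw [map_zero] at hvb
    exact zero_ne_one hvb
  have h1 : r (⟨a, ha⟩ - ⟨b, hb⟩ ^ n) = 0 := by rw [map_sub, map_pow, h, sub_self]
  have h2 : V.valuation (a - b ^ n) < 1 := by
    have := (hr _).1 h1
    exact V.mem_nonunits_iff.1 this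
  have h3 : b⁻¹ ^ n / a⁻¹ - 1 = (a - b ^ n) / b ^ n := by
    have : b ^ n ≠ 0 := pow_ne_zero _ hb1
    rw [inv_pow, div_inv_eq_mul]
    field_simp
  rw [h3, map_div₀, map_pow, hvb, one_pow, div_one]
  exact h2

end General

variable {K K' : Type*} [Field K] [Field K'] [Algebra ℚ K] [Algebra ℚ K'] [Algebra K Kbar]
  [Algebra K' Kbar] (S : Setup K K')

theorem ci_jb_congr {d d' : ℕ} [NeZero d] [NeZero d'] (h : d = d') : S.jb d = S.jb d' := by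
  subst h; rfl

/-! ### residues on `V20` -/

theorem ci_J2one_mem20 : S.J2one ∈ S.V20 := S.JK_mem_V20 _ _
theorem ci_J2q_mem20 : (Inst.J2q S) ∈ S.V20 := S.JK_mem_V20 _ _
theorem ci_J2qq_mem20 : S.J2qq ∈ S.V20 := S.JK_mem_V20 _ _

theorem ci_r20_J2one : S.r20 ⟨S.J2one, S.ci_J2one_mem20⟩ = S.jb 1 := S.r20_JK _ _
theorem ci_r20_J2q : S.r20 ⟨(Inst.J2q S), S.ci_J2q_mem20⟩ = S.jb 1 ^ S.q := by
  rw [← jb_q_mul]
  exact (S.r20_JK _ _).trans (S.ci_jb_congr (Nat.mul_comm _ _))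
theorem ci_r20_J2qq : S.r20 ⟨S.J2qq, S.ci_J2qq_mem20⟩ = (S.jb 1 ^ S.q) ^ S.q := by
  rw [← jb_q_mul, ← jb_q_mul]
  exact (S.r20_JK _ _).trans (S.ci_jb_congr (by ring))

/-! ### residues on `V11` -/

theorem ci_J2one_mem11 : S.J2one ∈ S.V11 := S.JK_mem_V11 _ _
theorem ci_J2q_mem11 : (Inst.J2q S) ∈ S.V11 := S.JK_mem_V11 _ _
theorem ci_J2qq_mem11 : S.J2qq ∈ S.V11 := S.JK_mem_V11 _ _

theorem ci_r11_J2one : S.r11 ⟨S.J2one, S.ci_J2one_mem11⟩ = S.jb 1 := S.r11_JK 1 (one_dvd _) _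
theorem ci_r11_J2q : S.r11 ⟨(Inst.J2q S), S.ci_J2q_mem11⟩ = S.jb 1 ^ S.q := by
  rw [← jb_q_mul]
  exact (S.r11_JK (1 * S.q) (Nat.mul_dvd_mul (one_dvd _) dvd_rfl) _).trans
    (S.ci_jb_congr (Nat.mul_comm _ _))
theorem ci_r11_J2qq : S.r11 ⟨S.J2qq, S.ci_J2qq_mem11⟩ = S.jb 1 := S.r11_JK' 1 (one_dvd _) _

/-! ### residues on `V02` -/

theorem ci_J2one_mem02 : S.J2one ∈ S.V02 := S.JK_mem_V02 _ _
theorem ci_J2q_mem02 : (Inst.J2q S) ∈ S.V02 := S.JK_mem_V02 _ _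
theorem ci_J2qq_mem02 : S.J2qq ∈ S.V02 := S.JK_mem_V02 _ _

theorem ci_r02_J2qq : S.r02 ⟨S.J2qq, S.ci_J2qq_mem02⟩ = S.jb 1 := by
  have h1 : 1 * (S.q * S.q) ∣ S.N0 * S.q * S.q := by
    rw [Nat.mul_assoc]; exact Nat.mul_dvd_mul (one_dvd _) dvd_rfl
  have e1 : S.J2qq = JK K (S.N0 * S.q * S.q) (1 * (S.q * S.q)) h1 :=
    JK_congr K _ (Nat.mul_assoc _ _ _) _ _
  have h2 := S.r02_JK 1 (S.q * S.q) 1 (one_dvd _) (Nat.mul_one _) h1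
  have h3 : (⟨S.J2qq, S.ci_J2qq_mem02⟩ : S.V02) = ⟨_, S.JK_mem_V02 (1 * (S.q * S.q)) h1⟩ :=
    Subtype.ext e1
  rw [h3, h2]

theorem ci_r02_J2q : S.r02 ⟨(Inst.J2q S), S.ci_J2q_mem02⟩ = S.jb 1 ^ S.q := by
  rw [← jb_q_mul]
  exact (S.r02_JK 1 S.q S.q (one_dvd _) rfl _).trans (S.ci_jb_congr (Nat.mul_comm _ _))

theorem ci_r02_J2one : S.r02 ⟨S.J2one, S.ci_J2one_mem02⟩ = (S.jb 1 ^ S.q) ^ S.q := by
  rw [← jb_q_mul, ← jb_q_mul]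
  have h1 : 1 * 1 ∣ S.N0 * S.q * S.q := by rw [one_mul]; exact one_dvd _
  have e1 : S.J2one = JK K (S.N0 * S.q * S.q) (1 * 1) h1 := JK_congr K _ (Nat.mul_one _).symm _ _
  have h2 := S.r02_JK 1 1 (S.q * S.q) (one_dvd _) (Nat.one_mul _) h1
  have h3 : (⟨S.J2one, S.ci_J2one_mem02⟩ : S.V02) = ⟨_, S.JK_mem_V02 (1 * 1) h1⟩ := Subtype.ext e1
  rw [h3, h2]
  exact S.ci_jb_congr (by ring)

/-! ### the fields of `CuspData` -/

theorem ci_jb_one_pow_ne_zero (n : ℕ) : S.jb 1 ^ n ≠ 0 := pow_ne_zero _ (S.jb_ne_zero 1)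

theorem ci_val_J2one_inv (i : Fin 3) : (Inst.VV S i).valuation S.J2one⁻¹ = 1 := by
  rw [map_inv₀, inv_eq_one]
  fin_cases i
  · exact cuspAux_val_eq_one S.r20 S.r20_eq_zero_iff S.ci_J2one_mem20
      (by rw [ci_r20_J2one]; exact S.jb_ne_zero 1)
  · exact cuspAux_val_eq_one S.r11 S.r11_eq_zero_iff S.ci_J2one_mem11
      (by rw [ci_r11_J2one]; exact S.jb_ne_zero 1)
  · exact cuspAux_val_eq_one S.r02 S.r02_eq_zero_iff S.ci_J2one_mem02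
      (by rw [ci_r02_J2one]; exact pow_ne_zero _ (S.ci_jb_one_pow_ne_zero _))

theorem ci_cusp_cong0 : S.V20.valuation (S.J2one⁻¹ ^ S.q / (Inst.J2q S)⁻¹ - 1) < 1 :=
  cuspAux_cong S.r20 S.r20_eq_zero_iff S.ci_J2q_mem20 S.ci_J2one_mem20 S.q
    (by rw [ci_r20_J2one]; exact S.jb_ne_zero 1) (by rw [ci_r20_J2q, ci_r20_J2one])

theorem ci_cusp_cong0' : S.V20.valuation ((Inst.J2q S)⁻¹ ^ S.q / S.J2qq⁻¹ - 1) < 1 :=
  cuspAux_cong S.r20 S.r20_eq_zero_iff S.ci_J2qq_mem20 S.ci_J2q_mem20 S.q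
    (by rw [ci_r20_J2q]; exact S.ci_jb_one_pow_ne_zero _) (by rw [ci_r20_J2qq, ci_r20_J2q])

theorem ci_cusp_cong1 : S.V11.valuation (S.J2one⁻¹ ^ S.q / (Inst.J2q S)⁻¹ - 1) < 1 :=
  cuspAux_cong S.r11 S.r11_eq_zero_iff S.ci_J2q_mem11 S.ci_J2one_mem11 S.q
    (by rw [ci_r11_J2one]; exact S.jb_ne_zero 1) (by rw [ci_r11_J2q, ci_r11_J2one])

theorem ci_cusp_cong1' : S.V11.valuation (S.J2qq⁻¹ ^ S.q / (Inst.J2q S)⁻¹ - 1) < 1 :=
  cuspAux_cong S.r11 S.r11_eq_zero_iff S.ci_J2q_mem11 S.ci_J2qq_mem11 S.q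
    (by rw [ci_r11_J2qq]; exact S.jb_ne_zero 1) (by rw [ci_r11_J2q, ci_r11_J2qq])

theorem ci_cusp_cong2 : S.V02.valuation ((Inst.J2q S)⁻¹ ^ S.q / S.J2one⁻¹ - 1) < 1 :=
  cuspAux_cong S.r02 S.r02_eq_zero_iff S.ci_J2one_mem02 S.ci_J2q_mem02 S.q
    (by rw [ci_r02_J2q]; exact S.ci_jb_one_pow_ne_zero _) (by rw [ci_r02_J2one, ci_r02_J2q])

theorem ci_cusp_cong2' : S.V02.valuation (S.J2qq⁻¹ ^ S.q / (Inst.J2q S)⁻¹ - 1) < 1 :=
  cuspAux_cong S.r02 S.r02_eq_zero_iff S.ci_J2q_mem02 S.ci_J2qq_mem02 S.q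
    (by rw [ci_r02_J2qq]; exact S.jb_ne_zero 1) (by rw [ci_r02_J2q, ci_r02_J2qq])

end Fermat.Agent.S36.Mod.Setup

end
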