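/-
S36, instance of the model, node N3 CUSP-INST (helper38).
`CuspData` for `s = 1/j(z)`, `s' = 1/j(qz)`, `s'' = 1/j(q²z)` at level `N0 q²`, and the local
hypotheses `PtHyp` at every closed point at which `1/j` vanishes.
-/
import Mathlib
import Fermat.Agent.S36.Inst.Cusp.Cong
import Fermat.Agent.BAD.Model.Phi.Export
import Fermat.Agent.BAD.Model.Cusp.Main
import Fermat.Agent.S36.Inst.Nodes

set_option autoImplicit false
set_option linter.unusedSectionVars false

noncomputable section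

namespace Fermat.Agent.S36.Mod.Setup

open ModularCurve Fermat.Agent.S24 Fermat.Agent.S18 Fermat.Agent.S18.Vert
  Fermat.Agent.S18.Descent Fermat.Agent.BAD.Model Fermat.Agent.S36.BP Fermat.Agent.S36.Inst

theorem ci_Js_eq_qExpand (L : Type*) [Field L] [Algebra ℚ L] (d : ℕ) [NeZero d] :
    Js L d = qExpand L d (jqModC L) := by
  rw [Js, coeffEmb, Phi.coeffMap_qExpand_phi, ← jqModC_rat, coeffMap_jqModC]

variable {K K' : Type*} [Field K] [Field K'] [Algebra ℚ K] [Algebra ℚ K'] [Algebra K Kbar]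
  [Algebra K' Kbar] (S : Setup K K')

theorem ci_coe_J2one : ((S.J2one : S.F2) : LaurentSeries K) = qExpand K 1 (jqModC K) :=
  ci_Js_eq_qExpand K 1

theorem ci_coe_J2q : (((Inst.J2q S) : S.F2) : LaurentSeries K) = qExpand K 1 (qExpand K S.q (jqModC K)) := by
  rw [qExpand_qExpand]
  exact ci_Js_eq_qExpand K (1 * S.q)

theorem ci_coe_J2q' : (((Inst.J2q S) : S.F2) : LaurentSeries K) = qExpand K S.q (jqModC K) := by
  rw [ci_coe_J2q, qExpand_one_apply]

theorem ci_coe_J2qq :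
    ((S.J2qq : S.F2) : LaurentSeries K) = qExpand K S.q (qExpand K S.q (jqModC K)) := by
  rw [qExpand_qExpand]
  exact (ci_Js_eq_qExpand K (1 * S.q * S.q)).trans (qExpand_congr (by ring) _)

theorem ci_J2one_ne_J2qq : S.J2one ≠ S.J2qq := by
  intro h
  have h1 : (⟨S.J2one, S.ci_J2one_mem20⟩ : S.V20) = ⟨S.J2qq, S.ci_J2qq_mem20⟩ := Subtype.ext h
  have h2 := congrArg S.r20 h1
  rw [ci_r20_J2one, ci_r20_J2qq, ← jb_q_mul, ← jb_q_mul] at h2
  have h3 := congrArg HahnSeries.order h2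
  rw [order_jb, order_jb] at h3
  have h4 : 2 ≤ S.q := S.hq.two_le
  have h5 : ((1 : ℕ) : ℤ) = ((S.q * (S.q * 1) : ℕ) : ℤ) := neg_injective h3
  have h6 : 1 = S.q * (S.q * 1) := by exact_mod_cast h5
  nlinarith

/-- **N3, first half**: the input of the cusp analysis. -/
theorem exists_cuspData :
    ∃ c : ℕ → ℕ → K, CuspData S.B S.q (Inst.VV S) c S.J2one⁻¹ (Inst.J2q S)⁻¹ S.J2qq⁻¹ := by
  have : Fact S.q.Prime := ⟨S.hq⟩
  obtain ⟨c', h0, hrel⟩ := Phi.exists_rel S.q
  have hne : ∀ {V : ValuationSubring S.F2} {y : S.F2}, V.valuation y = 1 → y ≠ 0 := by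
    rintro V y hy rfl
    rw [map_zero] at hy
    exact zero_ne_one hy
  have h1 : S.J2one ≠ 0 := by
    have := hne (S.ci_val_J2one_inv 0)
    exact fun h => this (by rw [h, inv_zero])
  have h2 : (Inst.J2q S) ≠ 0 := hne (cuspAux_val_eq_one S.r20 S.r20_eq_zero_iff S.ci_J2q_mem20
    (by rw [ci_r20_J2q]; exact S.ci_jb_one_pow_ne_zero _))
  have h3 : S.J2qq ≠ 0 := hne (cuspAux_val_eq_one S.r11 S.r11_eq_zero_iff S.ci_J2qq_mem11
    (by rw [ci_r11_J2qq]; exact S.jb_ne_zero 1))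
  refine ⟨fun a b => ((c' a b : ℤ) : K), ?_⟩
  exact
    { coeff_mem := fun a b => intCast_mem S.B _
      coeff_unit := by
        show S.B.valuation ((c' 0 0 : ℤ) : K) = 1
        rw [h0]
        simp
      ne := inv_ne_zero h1
      ne' := inv_ne_zero h2
      ne'' := inv_ne_zero h3
      ne_s := fun h => S.ci_J2one_ne_J2qq (inv_injective h)
      rel := (hrel K S.F2 K (algebraMap S.F2 (LaurentSeries K)) 1 S.J2one (Inst.J2q S)
        S.ci_coe_J2one S.ci_coe_J2q).1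
      rel'' := (hrel K S.F2 K (algebraMap S.F2 (LaurentSeries K)) S.q (Inst.J2q S) S.J2qq
        S.ci_coe_J2q' S.ci_coe_J2qq).2
      unit := S.ci_val_J2one_inv
      cong0 := S.ci_cusp_cong0
      cong0' := S.ci_cusp_cong0'
      cong1 := S.ci_cusp_cong1
      cong1' := S.ci_cusp_cong1'
      cong2 := S.ci_cusp_cong2
      cong2' := S.ci_cusp_cong2' }

/-- **N3, second half**: `PtHyp` at the closed points at which `1/j` vanishes. -/
theorem ptHyp_cusp {x ϖm : S.F2} (P : PreModel S.B S.q x (Inst.VV S) ϖm) {R : Subring S.F2}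
    (hR : PtBase S.B S.q (Inst.VV S) R) (hs : S.J2one⁻¹ ∈ rad R)
    (E : Fin 3 → Subfield S.F2) (hG : ∀ i, LeLoc R (Inst.VV S i) → GoodBelow (Inst.VV S i) (E i) R)
    (Eα Eβ : Subfield S.F2) (Nα Nβ : S.F2 →* S.F2) : PtHyp (Inst.VV S) Eα Eβ Nα Nβ R := by
  obtain ⟨c, D⟩ := S.exists_cuspData
  exact D.ptHyp P.base P.unif0 P.unif1 P.unif2 P.ram1 hR hs E hG Eα Eβ Nα Nβ

end Fermat.Agent.S36.Mod.Setup

namespace Fermat.Agent.S36.Inst

/-- **Node N3 of `S36/Inst/Nodes.lean`.** -/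
theorem nodeCusp : NodeCusp := fun _ _ _ _ _ _ _ _ S _ => S.exists_cuspData

end Fermat.Agent.S36.Inst

end
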