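/-
S36, instance of the model, node N3 CUSP-INST (helper38): the cusp data in the form of the field
`cuspData` of helper98's contract (`BAD/Model/WIP/Instance.lean`):
`s = 1 / (al1 ∘ al0) j`, `s'' = 1 / (be1 ∘ be0) j`, `j = jK K N0`, with all definitions unfolded.
-/
import Mathlib
import Fermat.Agent.S36.Inst.Cusp.Data

set_option autoImplicit false
set_option linter.unusedSectionVars false

noncomputable section

namespace Fermat.Agent.S36.Mod.Setup

open ModularCurve Fermat.Agent.S24 Fermat.Agent.S18 Fermat.Agent.S18.Vert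
  Fermat.Agent.S18.Descent Fermat.Agent.BAD.Model Fermat.Agent.S36.BP Fermat.Agent.S36.Inst

variable {K K' : Type*} [Field K] [Field K'] [Algebra ℚ K] [Algebra ℚ K'] [Algebra K Kbar]
  [Algebra K' Kbar] (S : Setup K K')

theorem ci_coe_jK_eq (N : ℕ) : ((jK K N : FK K N) : LaurentSeries K) = jqModC K := by
  show coeffEmb K jq = _
  rw [coeffEmb, ← jqModC_rat, coeffMap_jqModC]

theorem ci_al1_al0_jK : (S.al1.comp S.al0) (jK K S.N0) = S.J2one := by
  apply Subtype.ext
  show ((S.al1 (S.al0 (jK K S.N0)) : S.F2) : LaurentSeries K) = _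
  rw [al1, al0, coe_heckeAlphaBar, coe_heckeAlphaBar, ci_coe_jK_eq, ci_coe_J2one, qExpand_one_apply]

theorem ci_be1_be0_jK : (S.be1.comp S.be0) (jK K S.N0) = S.J2qq := by
  apply Subtype.ext
  show ((S.be1 (S.be0 (jK K S.N0)) : S.F2) : LaurentSeries K) = _
  rw [be1, be0, coe_heckeBetaBar, coe_heckeBetaBar, ci_coe_jK_eq, ci_coe_J2qq]

/-- the field `cuspData` of the instance contract, all definitions unfolded. -/
theorem exists_cuspData_comp : ∃ (c : ℕ → ℕ → K) (s' : S.F2),
    CuspData S.B S.q ![S.V20, S.V11, S.V02] c ((S.al1.comp S.al0) (jK K S.N0))⁻¹ s'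
      ((S.be1.comp S.be0) (jK K S.N0))⁻¹ := by
  obtain ⟨c, D⟩ := S.exists_cuspData
  rw [ci_al1_al0_jK, ci_be1_be0_jK]
  exact ⟨c, _, D⟩

end Fermat.Agent.S36.Mod.Setup

end
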